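import Mathlib
import Fermat.Agent.SS.Val.Kummer2

/-!
# S35 prework, leaf (NR) : NORM / RESIDUE COMPATIBILITY at the two valuations above the Gauss valuation

Setting of `SS/Val/Kummer2.lean` : `R` a discrete valuation ring with uniformiser `ϖ` and residue
field `κ` of characteristic `q`, `S = R[y] = R[Y]/(Ξ)` a domain, `Ξ ≡ (Y - a)(Y^q - b) mod ϖ`
(Kronecker), `𝔐₁ = (ϖ, y - a)`, `𝔐₂ = (ϖ, y^q - b)` the two maximal ideals of `S`
(`S = V₁ ∩ V₂` is the semilocal Dedekind ring of the two valuations above `R`).  Then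
`κ(𝔐₁) = κ`, `κ(𝔐₂) / κ` is purely inseparable of degree `q`, and for every `g ∈ S`

  `g ≡ a₁ mod 𝔐₁`, `g^q ≡ a₂ mod 𝔐₂` (`a₁, a₂ ∈ R`)  ⟹  `N_{S/R}(g) ≡ a₁ a₂ mod ϖ`

(`s35n_norm_congr`).  In the application (`R` = the Gauss ring of the level-`M'` function field,
embedded by `α`, `y = φ(j)`, `S ⊂ F(qM')`) this is the compatibility of the push-forward `α_*` with
the reduction maps to the two components of the special fibre : `(N_α f)‾ = f̄₁ · f̄₂^q`.

Generic pieces : `s35n_norm_quotient_mk` (the norm commutes with reduction modulo the maximal ideal,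
the norm analogue of Mathlib's `Algebra.trace_quotient_mk`), `s35n_norm_prod` (norm on a product
algebra), `s35n_norm_of_pow_eq` (norm in a purely inseparable algebra of rank `q`).

Mathlib + `SS/Val/Kummer2.lean` only.  Prefix `s35n_` / `s35n`.
-/

set_option autoImplicit false
set_option linter.unusedSectionVars false
set_option linter.style.haveILetI false

noncomputable section

namespace Fermat.Agent.S35

open Polynomial IsLocalRing Module Fermat.Agent.SS

/-! ### Generic pieces -/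

section Quot

variable {R S : Type*} [CommRing R] [CommRing S] [Algebra R S] [IsLocalRing R]
  [Module.Finite R S] [Module.Free R S]

attribute [local instance] Ideal.Quotient.field

/-- the norm commutes with reduction modulo the maximal ideal (norm analogue of Mathlib's
`Algebra.trace_quotient_mk`) -/
theorem s35n_norm_quotient_mk (x : S) :
    Algebra.norm (R ⧸ maximalIdeal R)
        (Ideal.Quotient.mk ((maximalIdeal R).map (algebraMap R S)) x) =
      Ideal.Quotient.mk (maximalIdeal R) (Algebra.norm R x) := by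
  classical
  let ι := Module.Free.ChooseBasisIndex R S
  let b : Module.Basis ι R S := Module.Free.chooseBasis R S
  rw [Algebra.norm_eq_matrix_det b, Algebra.norm_eq_matrix_det (basisQuotient b), RingHom.map_det]
  congr 1
  ext i j
  simp only [Algebra.leftMulMatrix_apply, Algebra.coe_lmul_eq_mul, LinearMap.toMatrix_apply,
    basisQuotient_apply, LinearMap.mul_apply', RingHom.mapMatrix_apply, Matrix.map_apply,
    ← map_mul, basisQuotient_repr]

end Quot

section Prod

variable {k A B : Type*} [Field k] [CommRing A] [CommRing B] [Algebra k A] [Algebra k B]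
  [Module.Finite k A] [Module.Finite k B]

/-- the norm of a product algebra -/
theorem s35n_norm_prod (a : A) (b : B) :
    Algebra.norm k ((a, b) : A × B) = Algebra.norm k a * Algebra.norm k b := by
  rw [Algebra.norm_apply, Algebra.norm_apply, Algebra.norm_apply, ← LinearMap.det_prodMap]
  congr 1

end Prod

section Insep

variable {k A : Type*} [Field k] [CommRing A] [Algebra k A]

/-- the norm of an element whose `q`-th power is a constant, in an algebra of rank `q` over a
field of characteristic `q` -/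
theorem s35n_norm_of_pow_eq (q : ℕ) [hq : Fact q.Prime] [CharP k q]
    (hfr : Module.finrank k A = q) (z : A) (c : k) (hz : z ^ q = algebraMap k A c) :
    Algebra.norm k z = c := by
  have h1 : Algebra.norm k z ^ q = c ^ q := by
    rw [← map_pow, hz, Algebra.norm_algebraMap, hfr]
  exact frobenius_inj k q (by simpa [frobenius_def] using h1)

/-- the norm of a constant in an algebra of rank one -/
theorem s35n_norm_of_eq (hfr : Module.finrank k A = 1) (z : A) (c : k)
    (hz : z = algebraMap k A c) : Algebra.norm k z = c := by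
  rw [hz, Algebra.norm_algebraMap, hfr, pow_one]

end Insep

/-! ### The two-factor setting -/

section Main

variable {R : Type*} [CommRing R] [IsDomain R] [IsDiscreteValuationRing R]
variable {S : Type*} [CommRing S] [IsDomain S] [Algebra R S]
variable {ϖ : R} {y : S} {Ξ F₁ F₂ G : R[X]}

/-- `S = R[y] ≅ R[X]/(Ξ)` -/
def s35nEquiv (d : SsvData ϖ y Ξ F₁ F₂ G) : AdjoinRoot Ξ ≃ₐ[R] S :=
  AlgEquiv.ofBijective
    (AdjoinRoot.liftAlgHom Ξ (Algebra.ofId R S) y (by
      have := d.root
      rwa [aeval_def] at this))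
    (by
      constructor
      · rw [injective_iff_map_eq_zero]
        intro x hx
        obtain ⟨g, rfl⟩ := AdjoinRoot.mk_surjective x
        rw [AdjoinRoot.liftAlgHom_mk] at hx
        exact AdjoinRoot.mk_eq_zero.mpr (d.ker g hx)
      · intro s
        obtain ⟨g, rfl⟩ := d.surj s
        exact ⟨AdjoinRoot.mk Ξ g, by rw [AdjoinRoot.liftAlgHom_mk]; rfl⟩)

/-- the power basis `1, y, …, y^{deg Ξ - 1}` of `S` over `R` -/
def s35nPowerBasis (d : SsvData ϖ y Ξ F₁ F₂ G) : PowerBasis R S :=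
  (AdjoinRoot.powerBasis' d.monic).map (s35nEquiv d)

theorem s35n_free (d : SsvData ϖ y Ξ F₁ F₂ G) : Module.Free R S :=
  Module.Free.of_basis (s35nPowerBasis d).basis

theorem s35n_finite (d : SsvData ϖ y Ξ F₁ F₂ G) : Module.Finite R S :=
  (s35nPowerBasis d).finite

theorem s35n_finrank (d : SsvData ϖ y Ξ F₁ F₂ G) : Module.finrank R S = Ξ.natDegree := by
  rw [(s35nPowerBasis d).finrank]
  simp [s35nPowerBasis]

theorem s35n_map_eq (d : SsvData ϖ y Ξ F₁ F₂ G) :
    (maximalIdeal R).map (algebraMap R S) = ssvM ϖ y F₁ ⊓ ssvM ϖ y F₂ := by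
  rw [d.inf_eq, d.irr.maximalIdeal_eq, Ideal.map_span, Set.image_singleton]

theorem s35n_liesOver (d : SsvData ϖ y Ξ F₁ F₂ G) :
    (ssvM ϖ y F₁).LiesOver (maximalIdeal R) := by
  constructor
  have hle : maximalIdeal R ≤ (ssvM ϖ y F₁).under R := by
    rw [d.irr.maximalIdeal_eq, Ideal.span_singleton_le_iff_mem]
    exact ssv_unif_mem ϖ y F₁
  have hne : (ssvM ϖ y F₁).under R ≠ ⊤ := by
    intro h
    have h1 : (1 : R) ∈ (ssvM ϖ y F₁).under R := h ▸ Submodule.mem_top
    rw [Ideal.under_def, Ideal.mem_comap, map_one] at h1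
    exact d.one_notMem h1
  exact (IsLocalRing.maximalIdeal.isMaximal R).eq_of_le hne hle

theorem s35n_isCoprime (d : SsvData ϖ y Ξ F₁ F₂ G) :
    IsCoprime (ssvM ϖ y F₁) (ssvM ϖ y F₂) :=
  Ideal.isCoprime_iff_sup_eq.mpr (Ideal.IsMaximal.coprime_of_ne d.isMaximal₁ d.isMaximal₂ d.M_ne)

attribute [local instance] Ideal.Quotient.field

/-- the Chinese remainder isomorphism `S/ϖS ≅ S/𝔐₁ × S/𝔐₂` over `R/ϖ` -/
def s35nCRT (d : SsvData ϖ y Ξ F₁ F₂ G) :
    haveI := s35n_liesOver d
    haveI := s35n_liesOver d.symm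
    (S ⧸ (maximalIdeal R).map (algebraMap R S)) ≃ₐ[R ⧸ maximalIdeal R]
      ((S ⧸ ssvM ϖ y F₁) × (S ⧸ ssvM ϖ y F₂)) :=
  haveI := s35n_liesOver d
  haveI := s35n_liesOver d.symm
  AlgEquiv.ofRingEquiv
    (f := (Ideal.quotEquivOfEq (s35n_map_eq d)).trans
      (Ideal.quotientInfEquivQuotientProd _ _ (s35n_isCoprime d)))
    (by
      intro x
      obtain ⟨r, rfl⟩ := Ideal.Quotient.mk_surjective x
      rfl)

theorem s35nCRT_mk (d : SsvData ϖ y Ξ F₁ F₂ G) (x : S) :
    s35nCRT d (Ideal.Quotient.mk _ x) = (Ideal.Quotient.mk _ x, Ideal.Quotient.mk _ x) := rfl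

theorem s35n_finite_quot [Module.Finite R S] (d : SsvData ϖ y Ξ F₁ F₂ G) :
    haveI := s35n_liesOver d
    Module.Finite (R ⧸ maximalIdeal R) (S ⧸ ssvM ϖ y F₁) := by
  haveI := s35n_liesOver d
  haveI : Module.Finite R (S ⧸ ssvM ϖ y F₁) :=
    Module.Finite.of_surjective (Ideal.Quotient.mkₐ R (ssvM ϖ y F₁)).toLinearMap
      (Ideal.Quotient.mkₐ_surjective R _)
  exact Module.Finite.of_restrictScalars_finite R _ _

/-- `S/𝔐₁ = R/ϖ` when `F₁ = X - a` -/
theorem s35n_finrank₁ {a : R} (d : SsvData ϖ y Ξ (X - C a) F₂ G) :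
    haveI := s35n_liesOver d
    Module.finrank (R ⧸ maximalIdeal R) (S ⧸ ssvM ϖ y (X - C a)) = 1 := by
  haveI := s35n_liesOver d
  haveI : Nontrivial (S ⧸ ssvM ϖ y (X - C a)) :=
    Ideal.Quotient.nontrivial_iff.mpr d.isMaximal₁.ne_top
  rw [finrank_eq_one_iff_of_nonzero' (1 : S ⧸ ssvM ϖ y (X - C a)) one_ne_zero]
  intro w
  obtain ⟨s, rfl⟩ := Ideal.Quotient.mk_surjective w
  obtain ⟨g, rfl⟩ := d.surj s
  refine ⟨Ideal.Quotient.mk _ (g.eval a), ?_⟩
  rw [Algebra.smul_def, mul_one]
  show Ideal.Quotient.mk _ (algebraMap R S (g.eval a)) = _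
  rw [Ideal.Quotient.eq]
  obtain ⟨h, hh⟩ := Polynomial.X_sub_C_dvd_sub_C_eval (a := a) (p := g)
  have h1 : aeval y g - algebraMap R S (g.eval a) = aeval y (X - C a) * aeval y h := by
    rw [← map_mul, ← hh, map_sub, aeval_C]
  have h2 : algebraMap R S (g.eval a) - aeval y g = -(aeval y (X - C a) * aeval y h) := by
    rw [← h1]; ring
  rw [h2]
  exact neg_mem (Ideal.mul_mem_right _ _ (ssv_aeval_mem ϖ y (X - C a)))

/-- `deg Ξ = 1 + q` -/
theorem s35n_natDegree {a b : R} {q : ℕ} (hq : 0 < q)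
    (d : SsvData ϖ y Ξ (X - C a) (X ^ q - C b) G) : Ξ.natDegree = 1 + q := by
  have h1 := d.map_eq
  have h2 : (Ξ.map (residue R)).natDegree = Ξ.natDegree := d.monic.natDegree_map _
  rw [← h2, h1, Polynomial.map_sub, Polynomial.map_sub, Polynomial.map_pow, map_X, map_C, map_C,
    Monic.natDegree_mul (monic_X_sub_C _) (monic_X_pow_sub_C _ hq.ne'), natDegree_X_sub_C,
    natDegree_X_pow_sub_C]

/-- **(NR) NORM / RESIDUE COMPATIBILITY** : if `g ≡ a₁ mod 𝔐₁` and `g^q ≡ a₂ mod 𝔐₂` then
`N_{S/R}(g) ≡ a₁ a₂ mod ϖ`. -/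
theorem s35n_norm_congr {a b : R} {q : ℕ} [hq : Fact q.Prime] [CharP (ResidueField R) q]
    (d : SsvData ϖ y Ξ (X - C a) (X ^ q - C b) G) (g : S) (a₁ a₂ : R)
    (h₁ : g - algebraMap R S a₁ ∈ ssvM ϖ y (X - C a))
    (h₂ : g ^ q - algebraMap R S a₂ ∈ ssvM ϖ y (X ^ q - C b)) :
    ∃ c : R, Algebra.norm R g - a₁ * a₂ = ϖ * c := by
  haveI := s35n_free d
  haveI := s35n_finite d
  haveI := s35n_liesOver d
  haveI := s35n_liesOver d.symm
  haveI := s35n_finite_quot d
  haveI := s35n_finite_quot d.symm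
  haveI : CharP (R ⧸ maximalIdeal R) q := ‹CharP (ResidueField R) q›
  have hfr : Module.finrank (R ⧸ maximalIdeal R) (S ⧸ (maximalIdeal R).map (algebraMap R S)) =
      1 + q := by
    rw [finrank_quotient_map, s35n_finrank d, s35n_natDegree hq.out.pos d]
  have hfr1 := s35n_finrank₁ d
  have hfr2 : Module.finrank (R ⧸ maximalIdeal R) (S ⧸ ssvM ϖ y (X ^ q - C b)) = q := by
    have h := (s35nCRT d).toLinearEquiv.finrank_eq
    rw [hfr, Module.finrank_prod, hfr1] at h
    omega
  have key : Ideal.Quotient.mk (maximalIdeal R) (Algebra.norm R g) =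
      Ideal.Quotient.mk (maximalIdeal R) (a₁ * a₂) := by
    rw [← s35n_norm_quotient_mk, ← Algebra.norm_eq_of_algEquiv (s35nCRT d), s35nCRT_mk,
      s35n_norm_prod, map_mul]
    congr 1
    · refine s35n_norm_of_eq hfr1 _ _ ?_
      exact (Ideal.Quotient.eq.mpr h₁)
    · refine s35n_norm_of_pow_eq q hfr2 _ _ ?_
      rw [← map_pow]
      exact (Ideal.Quotient.eq.mpr h₂)
  rw [Ideal.Quotient.eq, d.irr.maximalIdeal_eq, Ideal.mem_span_singleton] at key
  exact key

end Main

end Fermat.Agent.S35
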