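import Mathlib
import Fermat.Agent.S35.NormRed.Core
import Fermat.Agent.SS.Val.Gauss2

/-!
# S35 prework, leaf (NR) : norm / residue compatibility, FIELD FORM and AMBIENT FORM

* `s35n_norm_frac` : for `S = R[y]` as in `SsvData`, `K = Frac R`, `K' = Frac S` : the field norm
  `N_{K'/K}` restricted to `S` is the ring norm `N_{S/R}`.
* `s35n_norm_congr_amb` : the ambient form of `s35n_norm_congr` (`SS/Val/Gauss2.lean`, `R` a subring of
  a field `F`, `V₁, V₂` the two valuation rings of `F` above `R`) : for `g ∈ V₁ ∩ V₂` with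
  `g ≡ a₁ mod 𝔪_{V₁}`, `g^q ≡ a₂ mod 𝔪_{V₂}` (`a₁, a₂ ∈ R`) : `g ∈ R[y]` and
  `N_{R[y]/R}(g) ≡ a₁ a₂ mod ϖ`.
* `s35n_norm_congr_field` : the same for the field norm `N_{F/K}`, `K` ANY field with
  `R → K → F`, `K = Frac R`.
-/

set_option autoImplicit false
set_option linter.unusedSectionVars false
set_option linter.style.haveILetI false

noncomputable section

namespace Fermat.Agent.S35

open Polynomial IsLocalRing Module Fermat.Agent.SS
open scoped nonZeroDivisors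

section Frac

variable {R : Type*} [CommRing R] [IsDomain R] [IsDiscreteValuationRing R]
variable {S : Type*} [CommRing S] [IsDomain S] [Algebra R S]
variable {ϖ : R} {y : S} {Ξ F₁ F₂ G : R[X]}
variable (K K' : Type*) [Field K] [Field K'] [Algebra R K] [IsFractionRing R K]
  [Algebra S K'] [IsFractionRing S K'] [Algebra K K'] [Algebra R K'] [IsScalarTower R K K']
  [IsScalarTower R S K']

/-- the field norm `N_{K'/K}` restricted to `S` is the ring norm `N_{S/R}` -/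
theorem s35n_norm_frac (d : SsvData ϖ y Ξ F₁ F₂ G) (g : S) :
    Algebra.norm K (algebraMap S K' g) = algebraMap R K (Algebra.norm R g) := by
  haveI := s35n_free d
  haveI := s35n_finite d
  haveI := d.isIntegrallyClosed
  haveI : Algebra.IsIntegral R S := ⟨d.isIntegral⟩
  haveI : Algebra.IsAlgebraic K K' := isAlgebraic_of_isFractionRing R S K K'
  haveI : IsLocalization (Algebra.algebraMapSubmonoid S R⁰) K' :=
    IsIntegralClosure.isLocalization R K K' S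
  exact Algebra.norm_localization R R⁰ g

end Frac

section Ambient

variable {F : Type*} [Field F] {R : Subring F} [IsDiscreteValuationRing ↥R]
variable {ϖ : ↥R} {y : F} {Ξ G : (↥R)[X]} {a b : ↥R} {q : ℕ}

/-- membership in `𝔐₁` from membership in `𝔪_{V₁}` -/
theorem s35n_mem_M₁ {F₁ F₂ : (↥R)[X]} (h : SsvAmb R ϖ y Ξ F₁ F₂ G)
    (s : ↥(Algebra.adjoin ↥R {y})) (hs : (s : F) ∈ h.V₁.nonunits) :
    s ∈ ssvM ϖ (ssvGen R y) F₁ := by
  haveI := h.data.isDedekindDomain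
  haveI := h.isFractionRing
  rw [h.mem_nonunits_V₁_iff] at hs
  exact (h.data.valuation_lt_one_iff₁ F s).mp hs

/-- membership in `𝔐₂` from membership in `𝔪_{V₂}` -/
theorem s35n_mem_M₂ {F₁ F₂ : (↥R)[X]} (h : SsvAmb R ϖ y Ξ F₁ F₂ G)
    (s : ↥(Algebra.adjoin ↥R {y})) (hs : (s : F) ∈ h.V₂.nonunits) :
    s ∈ ssvM ϖ (ssvGen R y) F₂ :=
  s35n_mem_M₁ h.symm s hs

/-- **(NR), ambient form.** -/
theorem s35n_norm_congr_amb [Fact q.Prime] [CharP (ResidueField ↥R) q]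
    (h : SsvAmb R ϖ y Ξ (X - C a) (X ^ q - C b) G) (g : F) (hg₁ : g ∈ h.V₁) (hg₂ : g ∈ h.V₂)
    (a₁ a₂ : ↥R) (h₁ : g - (a₁ : F) ∈ h.V₁.nonunits) (h₂ : g ^ q - (a₂ : F) ∈ h.V₂.nonunits) :
    ∃ hg : g ∈ Algebra.adjoin ↥R {y}, ∃ c : ↥R,
      Algebra.norm ↥R (⟨g, hg⟩ : ↥(Algebra.adjoin ↥R {y})) - a₁ * a₂ = ϖ * c := by
  have hg : g ∈ Algebra.adjoin ↥R {y} := (h.mem_adjoin_iff g).mpr ⟨hg₁, hg₂⟩
  refine ⟨hg, ?_⟩
  refine s35n_norm_congr h.data ⟨g, hg⟩ a₁ a₂ ?_ ?_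
  · exact s35n_mem_M₁ h _ h₁
  · exact s35n_mem_M₂ h _ h₂

/-- **(NR), field form** : `K` any field with `R → K → F`, `K = Frac R`. -/
theorem s35n_norm_congr_field [Fact q.Prime] [CharP (ResidueField ↥R) q]
    (K : Type*) [Field K] [Algebra ↥R K] [IsFractionRing ↥R K] [Algebra K F]
    [IsScalarTower ↥R K F]
    (h : SsvAmb R ϖ y Ξ (X - C a) (X ^ q - C b) G) (g : F) (hg₁ : g ∈ h.V₁) (hg₂ : g ∈ h.V₂)
    (a₁ a₂ : ↥R) (h₁ : g - (a₁ : F) ∈ h.V₁.nonunits) (h₂ : g ^ q - (a₂ : F) ∈ h.V₂.nonunits) :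
    ∃ c : ↥R, Algebra.norm K g - algebraMap ↥R K (a₁ * a₂) = algebraMap ↥R K (ϖ * c) := by
  obtain ⟨hg, c, hc⟩ := s35n_norm_congr_amb h g hg₁ hg₂ a₁ a₂ h₁ h₂
  refine ⟨c, ?_⟩
  haveI := h.isFractionRing
  have h3 := s35n_norm_frac K F h.data (⟨g, hg⟩ : ↥(Algebra.adjoin ↥R {y}))
  have h4 : algebraMap ↥(Algebra.adjoin ↥R {y}) F ⟨g, hg⟩ = g := rfl
  rw [h4] at h3
  rw [h3, ← map_sub, hc]

/-- **(NR), embedded form** : `K` a field with an embedding `ι : K → F` and a section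
`ψ : R → K` of `ι` over `R` (`ι (ψ r) = r`), `K = Frac (ψ R)`.  All algebra structures are built
here, in the generic context; the norm is taken for `ι.toAlgebra`. -/
theorem s35n_norm_congr_emb [Fact q.Prime] [CharP (ResidueField ↥R) q]
    {K : Type*} [Field K] (ι : K →+* F) (ψ : ↥R →+* K) (hψ : ∀ r : ↥R, ι (ψ r) = (r : F))
    (hfrac : ∀ z : K, ∃ a b : ↥R, b ≠ 0 ∧ ι z * (b : F) = (a : F))
    (h : SsvAmb R ϖ y Ξ (X - C a) (X ^ q - C b) G) (g : F) (hg₁ : g ∈ h.V₁) (hg₂ : g ∈ h.V₂)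
    (a₁ a₂ : ↥R) (h₁ : g - (a₁ : F) ∈ h.V₁.nonunits) (h₂ : g ^ q - (a₂ : F) ∈ h.V₂.nonunits) :
    letI := ι.toAlgebra
    ∃ c : ↥R, Algebra.norm K g - ψ a₁ * ψ a₂ = ψ ϖ * ψ c := by
  letI algF : Algebra K F := ι.toAlgebra
  letI algR : Algebra ↥R K := ψ.toAlgebra
  have hψinj : Function.Injective ψ := by
    intro r r' hrr
    apply Subtype.ext
    rw [← hψ r, ← hψ r', hrr]
  haveI : IsScalarTower ↥R K F := IsScalarTower.of_algebraMap_eq fun r => (hψ r).symm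
  haveI : IsFractionRing ↥R K := by
    haveI : FaithfulSMul ↥R K := (faithfulSMul_iff_algebraMap_injective _ _).mpr hψinj
    refine IsFractionRing.of_field _ _ fun z => ?_
    obtain ⟨a', b', hb', hab'⟩ := hfrac z
    refine ⟨a', b', ?_⟩
    show z = ψ a' / ψ b'
    have hb0 : ψ b' ≠ 0 := fun h0 => hb' (hψinj (h0.trans (map_zero _).symm))
    rw [eq_div_iff hb0]
    apply ι.injective
    rw [map_mul, hψ, hψ]
    exact hab'
  obtain ⟨c, hc⟩ := s35n_norm_congr_field K h g hg₁ hg₂ a₁ a₂ h₁ h₂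
  refine ⟨c, ?_⟩
  have e1 : algebraMap ↥R K (a₁ * a₂) = ψ a₁ * ψ a₂ := map_mul ψ a₁ a₂
  have e2 : algebraMap ↥R K (ϖ * c) = ψ ϖ * ψ c := map_mul ψ ϖ c
  rw [← e1, ← e2]
  exact hc

end Ambient

end Fermat.Agent.S35
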